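import Fermat.Agent.S35.G.H60.NormRed
import Fermat.Agent.S35.G.H986.NotPow

/-!
# S35 (G') / TORIC / NORM-RED, unconditional (helper60)

`normRed : NormRedStatement A E M q w` = `normRedAsm` (helper60) applied to NOT-POW
(`H986.notPow`, helper986).
-/

set_option autoImplicit false

namespace Fermat.Agent.S35.G.H60

open Fermat.Agent.A2.Mod

/-- **NORM-RED**, unconditional: norm reduction along `α`. -/
theorem normRed (A : ValuationSubring Qb) (E : IntermediateField ℚ Qb) (M q : ℕ) [NeZero M]
    [NeZero q] (w : RE A E) : NormRedStatement A E M q w :=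
  normRedAsm A E M q w (H986.notPow A E M q w)

end Fermat.Agent.S35.G.H60
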