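import Fermat.Agent.S35.G.SpecLevel

/-!
# S35, piece (G'), leaf TORIC — frozen SUB-LEAVES (sub-architect helper60)

`ToricStatement A E M q m w` (`S35/G/SpecLevel.lean`) is proved in `H60/Toric.lean` from

* the sibling leaves `StableStatement`, `KronFrobStatement` (as hypotheses),
* the landed A2/MOD leaves L1, L2, L4, L5, L6, L7, L11,
* `NormRedStatement` : **norm reduction along `α`**: for `y ∈ V∞ ∩ V₀` with
  `y ≡ α U mod w V∞` and `y ^ q ≡ α T mod w V₀` (`U, T ∈ V∞_M`):
  `N_α y ≡ U * T mod w V∞_M`.
  (`[F_{Mq} : α F_M] = q + 1`, `V∞`, `V₀` are the two extensions of `V∞_M`, with residue degrees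
  `1` and `q`, the second purely inseparable; abstract theorem: `S35.H253.norm_red_insep`.)

`NormRedStatement` itself is proved in `H60/NormRed.lean` from

* `NotPowStatement` : `j` is not a `q`-th power modulo `w` at level `M`
  (`t`-expansions: the reduction of `j` has a nonzero coefficient at `t⁻¹`, a `q`-th power in
  `k((t))` lies in `k((t^q))`),
* the fundamental inequality `f₁ + f₂ ≤ [F : K]` (`H60/FundIneq.lean`, from `S35.H253`),
* `S37.H818.finrankAlong_heckeAlphaBar` (`[F_{Mq} : α F_M] = q + 1`).

Definitions only (no `sorry`).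
-/

set_option autoImplicit false
set_option linter.style.haveILetI false
set_option linter.unusedSectionVars false
set_option synthInstance.maxHeartbeats 400000
set_option maxHeartbeats 1600000

noncomputable section

namespace Fermat.Agent.S35.G.H60

open ModularCurve AlgebraicCurve

variable (A : ValuationSubring Qb) (E : IntermediateField ℚ Qb) (M q : ℕ) [NeZero M] [NeZero q]
  (w : A2.Mod.RE A E)

/-- **NORM-RED (norm reduction along `α`).**  For `y ∈ V∞ ∩ V₀` (level `M q`) and `U, T ∈ V∞_M`
with `y ≡ α U mod w V∞` and `y ^ q ≡ α T mod w V₀`:  `N_α y ≡ U * T mod w V∞_M`. -/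
def NormRedStatement : Prop :=
  A2.Mod.Setting A E M q w →
    ∀ (VM : ValuationSubring (A2.Mod.FE E M)) (V : ValuationSubring (A2.Mod.FE E (M * q)))
      (W : A2.Mod.FE E (M * q) ≃ₐ[E] A2.Mod.FE E (M * q)),
      A2.Mod.IsVinf A E M VM → A2.Mod.IsVinf A E (M * q) V → A2.Mod.IsFricke E (M * q) W →
      ∀ y : A2.Mod.FE E (M * q), y ∈ V → W y ∈ V →
        ∀ U ∈ VM, ∀ T ∈ VM,
          A2.Mod.InW A E (M * q) V w (y - A2.Mod.αE E M q U) →
          A2.Mod.InW A E (M * q)
            (V.comap (W : A2.Mod.FE E (M * q) →+* A2.Mod.FE E (M * q))) w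
            (y ^ q - A2.Mod.αE E M q T) →
          A2.Mod.InW A E M VM w (S29.H395.normAlong (A2.Mod.αE E M q) y - U * T)

/-- **NOT-POW.**  At level `M` (prime to `q`), `j` is not a `q`-th power modulo `w`:
there is no `a ∈ V∞_M` with `a ^ q ≡ j mod w V∞_M`.
(Reduce the `t`-expansions modulo `w`: `red (j) = t⁻¹ + ⋯`, while a `q`-th power in `k((t))`,
`char k = q`, has no term of exponent prime to `q`: `S37.H400.laurent_pow_char`.) -/
def NotPowStatement : Prop :=
  A2.Mod.Setting A E M q w →
    ∀ VM : ValuationSubring (A2.Mod.FE E M), A2.Mod.IsVinf A E M VM →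
      ∀ a ∈ VM, ¬ A2.Mod.InW A E M VM w (a ^ q - A2.Mod.jE E M 1 (one_dvd _))

/-- **GLUE.**  TORIC from NORM-RED and the sibling leaves STABLE, KRON-FROB (the A2/MOD leaves
L1, L2, L4, L5, L7, L11 are on main).  Proof sketch: `coord/S35-TORIC-helper60.md`. -/
def GlueStatement (m : ℕ) : Prop :=
  NormRedStatement A E M q w → StableStatement A E → KronFrobStatement A E M q w →
    ToricStatement A E M q m w

/-- **NORM-RED assembly.**  NORM-RED from NOT-POW (plus landed degree theory and the abstract
norm reduction `S35.H253.norm_red_insep`). -/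
def NormRedAsmStatement : Prop :=
  NotPowStatement A E M q w → NormRedStatement A E M q w

end Fermat.Agent.S35.G.H60

end
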