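import Fermat.Agent.S35.G.H60.FundIneq

/-!
# Norm reduction for a degeneracy map at a prime of bad reduction — abstract form (helper60)

Mathlib + `S35.H253`.  `F / K` of degree `q + 1`, `q` prime; `O ⊆ K` a valuation ring of residue
characteristic `q`; `V₁`, `V₂` incomparable valuation rings of `F` over `O`; an element `z ∈ V₂`
with `z ^ q ≡ c` (`c ∈ O`) where `c` is NOT a `q`-th power modulo the maximal ideal of `O`.
Then the residue degrees are `1` and `q` (the second purely inseparable on the elements we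
need), and for `y ∈ V₁ ∩ V₂` with `y ≡ U` at `V₁`, `y ^ q ≡ T` at `V₂` (`U, T ∈ O`):

  `N_{F/K} y ∈ O`  and  `N_{F/K} y ≡ U * T` modulo the maximal ideal of `O`.
-/

set_option autoImplicit false
set_option linter.style.haveILetI false

namespace Fermat.Agent.S35.G.H60

open Fermat.Agent.S35.H253 Polynomial

section NormRedAbs

variable {K F : Type*} [Field K] [Field F] [Algebra K F]

/-- The local homomorphism `O → V` of a valuation ring `V` of `F` over `O`. -/
def overHom {O : ValuationSubring K} {V : ValuationSubring F} (h : Over O V) : O →+* V where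
  toFun a := ⟨algebraMap K F a, (h a).2 a.2⟩
  map_one' := Subtype.ext (map_one _)
  map_mul' _ _ := Subtype.ext (map_mul _ _ _)
  map_zero' := Subtype.ext (map_zero _)
  map_add' _ _ := Subtype.ext (map_add _ _ _)

theorem isLocalHom_overHom {O : ValuationSubring K} {V : ValuationSubring F} (h : Over O V) :
    IsLocalHom (overHom h) := by
  refine ⟨fun a ha => ?_⟩
  rw [ValuationSubring.valuation_eq_one_iff] at ha ⊢
  have h1 : V.valuation (algebraMap K F (a : K)) = 1 := ha
  have h2 : O.valuation (a : K) ≤ 1 := O.valuation_le_one a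
  refine le_antisymm h2 (not_lt.1 fun hlt => ?_)
  have := (h.val_lt_one_iff (a : K)).2 hlt
  rw [h1] at this
  exact lt_irrefl _ this

theorem residue_eq_iff_val {V : ValuationSubring F} (a b : V) :
    IsLocalRing.residue V a = IsLocalRing.residue V b ↔ V.valuation ((a : F) - (b : F)) < 1 := by
  rw [← sub_eq_zero, ← map_sub, IsLocalRing.residue_eq_zero_iff,
    ValuationSubring.valuation_lt_one_iff]
  rfl

/-- **Norm reduction, abstract form.** -/
theorem norm_red_abs (q : ℕ) (hq : q.Prime) (hdeg : Module.finrank K F = q + 1)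
    {O : ValuationSubring K} {V₁ V₂ : ValuationSubring F}
    (h₁ : Over O V₁) (h₂ : Over O V₂) (hne₁ : ¬ V₁ ≤ V₂) (hne₂ : ¬ V₂ ≤ V₁)
    (hqO : O.valuation (q : K) < 1)
    {z : F} (hz : z ∈ V₂) {c : K} (hc : c ∈ O)
    (hzc : V₂.valuation (z ^ q - algebraMap K F c) < 1)
    (hnp : ∀ a ∈ O, ¬ O.valuation (a ^ q - c) < 1)
    {y : F} (hy₁ : y ∈ V₁) (hy₂ : y ∈ V₂) {U T : K} (hU : U ∈ O) (hT : T ∈ O)
    (hyU : V₁.valuation (y - algebraMap K F U) < 1)
    (hyT : V₂.valuation (y ^ q - algebraMap K F T) < 1) :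
    Algebra.norm K y ∈ O ∧ O.valuation (Algebra.norm K y - U * T) < 1 := by
  classical
  haveI : Fact q.Prime := ⟨hq⟩
  haveI : FiniteDimensional K F := Module.finite_of_finrank_pos (by rw [hdeg]; omega)
  -- residue fields
  haveI := isLocalHom_overHom h₁
  haveI := isLocalHom_overHom h₂
  letI : Algebra (IsLocalRing.ResidueField O) (IsLocalRing.ResidueField V₁) :=
    (IsLocalRing.ResidueField.map (overHom h₁)).toAlgebra
  letI : Algebra (IsLocalRing.ResidueField O) (IsLocalRing.ResidueField V₂) :=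
    (IsLocalRing.ResidueField.map (overHom h₂)).toAlgebra
  set π : O →+* IsLocalRing.ResidueField O := IsLocalRing.residue O with hπdef
  set ρ₁ : V₁ →+* IsLocalRing.ResidueField V₁ := IsLocalRing.residue V₁ with hρ₁def
  set ρ₂ : V₂ →+* IsLocalRing.ResidueField V₂ := IsLocalRing.residue V₂ with hρ₂def
  have hπ : Function.Surjective π := IsLocalRing.residue_surjective
  have hρ₁ : Function.Surjective ρ₁ := IsLocalRing.residue_surjective
  have hρ₂ : Function.Surjective ρ₂ := IsLocalRing.residue_surjective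
  have hc₁ : ∀ a : O, ρ₁ ⟨algebraMap K F a, (h₁ a).2 a.2⟩ =
      algebraMap (IsLocalRing.ResidueField O) (IsLocalRing.ResidueField V₁) (π a) := fun a => rfl
  have hc₂ : ∀ a : O, ρ₂ ⟨algebraMap K F a, (h₂ a).2 a.2⟩ =
      algebraMap (IsLocalRing.ResidueField O) (IsLocalRing.ResidueField V₂) (π a) := fun a => rfl
  -- characteristic
  have hq0 : (q : IsLocalRing.ResidueField O) = 0 := by
    have h : π ((q : ℕ) : O) = 0 := by
      rw [hπdef, IsLocalRing.residue_eq_zero_iff, ValuationSubring.valuation_lt_one_iff]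
      simpa using hqO
    simpa using h
  haveI : CharP (IsLocalRing.ResidueField O) q := by
    obtain ⟨p, hp⟩ := CharP.exists (IsLocalRing.ResidueField O)
    have hdvd : p ∣ q := (CharP.cast_eq_zero_iff (IsLocalRing.ResidueField O) p q).1 hq0
    rcases (Nat.dvd_prime hq).1 hdvd with h | h
    · exact absurd h (CharP.char_ne_one (IsLocalRing.ResidueField O) p)
    · rwa [h] at hp
  -- fundamental inequality
  obtain ⟨hf₁, hf₂, hle⟩ :=
    finite_and_finrank_add_le h₁ h₂ hne₁ hne₂ π ρ₁ ρ₂ hπ hρ₁ hρ₂ hc₁ hc₂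
  have hpos₁ : 0 < Module.finrank (IsLocalRing.ResidueField O) (IsLocalRing.ResidueField V₁) :=
    Module.finrank_pos
  -- the residue degree at `V₂` is at least `q`
  have hirr : Irreducible (X ^ q - C (π ⟨c, hc⟩) : (IsLocalRing.ResidueField O)[X]) := by
    refine X_pow_sub_C_irreducible_of_prime hq fun b hb => ?_
    obtain ⟨a, rfl⟩ := hπ b
    rw [← map_pow, hπdef, residue_eq_iff_val] at hb
    exact hnp a a.2 hb
  have hroot : Polynomial.aeval (ρ₂ ⟨z, hz⟩)
      (X ^ q - C (π ⟨c, hc⟩) : (IsLocalRing.ResidueField O)[X]) = 0 := by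
    rw [map_sub, map_pow, aeval_X, aeval_C, ← hc₂ ⟨c, hc⟩, ← map_pow, sub_eq_zero, hρ₂def,
      residue_eq_iff_val]
    exact hzc
  have hmonic : (X ^ q - C (π ⟨c, hc⟩) : (IsLocalRing.ResidueField O)[X]).Monic :=
    monic_X_pow_sub_C _ hq.ne_zero
  have hmin : minpoly (IsLocalRing.ResidueField O) (ρ₂ ⟨z, hz⟩) =
      X ^ q - C (π ⟨c, hc⟩) := (minpoly.eq_of_irreducible_of_monic hirr hroot hmonic).symm
  have hge₂ : q ≤ Module.finrank (IsLocalRing.ResidueField O) (IsLocalRing.ResidueField V₂) := by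
    have h := minpoly.natDegree_le (A := IsLocalRing.ResidueField O) (ρ₂ ⟨z, hz⟩)
    rwa [hmin, natDegree_X_pow_sub_C] at h
  rw [hdeg] at hle
  have hdeg₁ : Module.finrank (IsLocalRing.ResidueField O) (IsLocalRing.ResidueField V₁) = 1 := by
    omega
  have hdeg₂ : Module.finrank (IsLocalRing.ResidueField O) (IsLocalRing.ResidueField V₂) = q := by
    omega
  -- the norm formula
  have ha : algebraMap (IsLocalRing.ResidueField O) (IsLocalRing.ResidueField V₂) (π ⟨T, hT⟩) =
      ρ₂ ⟨y, hy₂⟩ ^ q := by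
    rw [← hc₂ ⟨T, hT⟩, ← map_pow, eq_comm, hρ₂def, residue_eq_iff_val]
    exact hyT
  obtain ⟨hN, hred⟩ := norm_red_insep h₁ h₂ hne₁ hne₂ q π ρ₁ ρ₂ hπ hρ₁ hρ₂ hc₁ hc₂ hdeg₁ hdeg₂
    hdeg hy₁ hy₂ ha
  refine ⟨hN, ?_⟩
  have hyU' : ρ₁ ⟨y, hy₁⟩ =
      algebraMap (IsLocalRing.ResidueField O) (IsLocalRing.ResidueField V₁) (π ⟨U, hU⟩) := by
    rw [← hc₁ ⟨U, hU⟩, hρ₁def, residue_eq_iff_val]
    exact hyU
  rw [hyU', ← map_mul, ← map_mul] at hred
  have hinj := (algebraMap (IsLocalRing.ResidueField O) (IsLocalRing.ResidueField V₁)).injective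
  have h3 := hinj hred
  rw [hπdef, residue_eq_iff_val] at h3
  exact h3

end NormRedAbs

end Fermat.Agent.S35.G.H60
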