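import Fermat.Agent.S35.G.H60.ToricSpec
import Fermat.Agent.S35.G.H60.NormRedAbs
import Fermat.Agent.A2.Mod.H378.L11
import Fermat.Agent.A2.Mod.H994.S2
import Fermat.Agent.S37.H818.ModularNorm

/-!
# S35 (G') / TORIC / NORM-RED (helper60): norm reduction along `α`

`normRedAsm : NotPowStatement A E M q w → NormRedStatement A E M q w`.

`K = F_M`, `F = F_{Mq}` (algebra along `α`), `O = V∞_M`, `V₁ = V∞`, `V₂ = V₀ = V∞ ∘ W`;
`[F : K] = q + 1` (`S37.H818.finrankAlong_heckeAlphaBar`), `z = j_q`, `c = j`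
(`j_q ^ q ≡ j` at `V₀`: `A2.Mod.H994.val_frobZero` after `W`), abstract theorem `norm_red_abs`.
-/

set_option autoImplicit false
set_option linter.style.haveILetI false
set_option linter.unusedSectionVars false
set_option synthInstance.maxHeartbeats 400000
set_option maxHeartbeats 1600000

noncomputable section

namespace Fermat.Agent.S35.G.H60

open ModularCurve AlgebraicCurve HahnSeries
open Fermat.Agent.A2.Mod Fermat.Agent.S35.H253

section Generic

variable {K F : Type*} [Field K] [Field F] [Algebra K F]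

/-- `V` lies over `O` as soon as `O` maps into `V` and the maximal ideal into the maximal ideal. -/
theorem over_of_map {O : ValuationSubring K} {V : ValuationSubring F}
    (hmem : ∀ a ∈ O, algebraMap K F a ∈ V)
    (hsmall : ∀ a : K, O.valuation a < 1 → V.valuation (algebraMap K F a) < 1) : Over O V := by
  intro a
  refine ⟨fun ha => ?_, hmem a⟩
  by_contra hcon
  have h1 : 1 < O.valuation a := by
    rw [← not_le, O.valuation_le_one_iff]
    exact hcon
  have ha0 : a ≠ 0 := by
    rintro rfl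
    rw [map_zero] at h1
    exact not_lt.2 zero_le_one h1
  have h2 : O.valuation a⁻¹ < 1 := by
    rw [map_inv₀]
    exact inv_lt_one_of_one_lt₀ h1
  have h3 := hsmall _ h2
  rw [map_inv₀, map_inv₀] at h3
  have h4 : V.valuation (algebraMap K F a) ≤ 1 := (V.valuation_le_one_iff _).2 ha
  have h5 : 0 < V.valuation (algebraMap K F a) := by
    rw [Valuation.pos_iff]
    exact (map_ne_zero _).2 ha0
  have h6 : 1 < V.valuation (algebraMap K F a) := (inv_lt_one₀ h5).1 h3
  exact absurd h4 (not_le.2 h6)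

end Generic

section Series

theorem coeffMap_qExpand_h60 {R S : Type*} [CommRing R] [CommRing S] (f : R →+* S) (n : ℕ)
    [NeZero n] (x : LaurentSeries R) : coeffMap f (qExpand R n x) = qExpand S n (coeffMap f x) := by
  ext k
  by_cases hk : (n : ℤ) ∣ k
  · obtain ⟨m, rfl⟩ := hk
    rw [coeffMap_coeff, qExpand_coeff_mul, qExpand_coeff_mul, coeffMap_coeff]
  · rw [coeffMap_coeff, qExpand_coeff_of_not_dvd n _ hk, qExpand_coeff_of_not_dvd n _ hk,
      map_zero]

end Series

section Concrete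

variable {A : ValuationSubring Qb} {E : IntermediateField ℚ Qb} {M q : ℕ} [NeZero M] [NeZero q]
  {w : RE A E}

/-- `β` maps `V∞` of level `M` into `V∞` of level `M q`. -/
theorem beta_mem_h60 {VM : ValuationSubring (FE E M)} {V : ValuationSubring (FE E (M * q))}
    (hVM : IsVinf A E M VM) (hV : IsVinf A E (M * q) V) {g : FE E M} (hg : g ∈ VM) :
    βE E M q g ∈ V := by
  rw [hV, coe_heckeBetaBar]
  obtain ⟨U₁, U₂, hred, hmem, heq⟩ := (hVM g).1 hg
  refine ⟨qExpand _ q U₁, qExpand _ q U₂, ?_, ?_, ?_⟩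
  · have e : A2.H708.red (RE A E) (qExpand _ q U₂) = qExpand _ q (A2.H708.red (RE A E) U₂) :=
      coeffMap_qExpand_h60 _ q U₂
    rw [e]
    exact fun h => hred (qExpand_injective q (h.trans (map_zero _).symm))
  · have h1 := (βE E M q ⟨_, hmem⟩).2
    rw [coe_heckeBetaBar] at h1
    have e : A2.H708.incl (RE A E) (qExpand _ q U₂) = qExpand _ q (A2.H708.incl (RE A E) U₂) :=
      coeffMap_qExpand_h60 _ q U₂
    rw [e]
    exact h1
  · have e₁ : A2.H708.incl (RE A E) (qExpand _ q U₁) = qExpand _ q (A2.H708.incl (RE A E) U₁) :=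
      coeffMap_qExpand_h60 _ q U₁
    have e₂ : A2.H708.incl (RE A E) (qExpand _ q U₂) = qExpand _ q (A2.H708.incl (RE A E) U₂) :=
      coeffMap_qExpand_h60 _ q U₂
    rw [e₁, e₂, ← map_mul, heq]

/-- `α` maps `V∞` of level `M` into `V₀ = V∞ ∘ W`. -/
theorem fricke_alpha_mem_h60 (hS : Setting A E M q w) {VM : ValuationSubring (FE E M)}
    {V : ValuationSubring (FE E (M * q))} {W : FE E (M * q) ≃ₐ[E] FE E (M * q)}
    (hVM : IsVinf A E M VM) (hV : IsVinf A E (M * q) V) (hW : IsFricke E (M * q) W)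
    {g : FE E M} (hg : g ∈ VM) : W (αE E M q g) ∈ V := by
  obtain ⟨WM, hWM⟩ := H553.frickeExists E M (NeZero.ne M)
  rw [(H553.frickeCompat E M q WM W hWM hW g).1]
  exact beta_mem_h60 hVM hV (H900.frickeStable A E M q w hS VM WM hVM hWM g hg)

theorem normRedAsm (A : ValuationSubring Qb) (E : IntermediateField ℚ Qb) (M q : ℕ) [NeZero M]
    [NeZero q] (w : RE A E) : NormRedAsmStatement A E M q w := by
  intro hNP hS VM V W hVM hV hW y hy hWy U hU T hT h1 h2
  haveI := hS.dvr
  have hq := hS.q_prime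
  haveI : Fact q.Prime := ⟨hq⟩
  have hN0 : M * q ≠ 0 := Nat.mul_ne_zero (NeZero.ne M) (NeZero.ne q)
  have hL2 := H553.vinfBasic A E w (M * q) hN0 hS.dvr hS.unif V hV
  have hL2M := H553.vinfBasic A E w M (NeZero.ne M) hS.dvr hS.unif VM hVM
  have hWc : (W : FE E (M * q) →+* FE E (M * q)) (cE A E (M * q) w) = cE A E (M * q) w :=
    W.commutes _
  have hU0 : A2.H48.IsUnif (V.comap (W : FE E (M * q) →+* FE E (M * q))) (cE A E (M * q) w) :=
    H994.isUnif_comap hL2.1 _ hWc
  letI : Algebra (FE E M) (FE E (M * q)) := algebraAlong (αE E M q)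
  -- the two extensions
  have hO₁ : Over VM V := fun a => H378.alpha_mem_iff hS hVM hV a
  have hO₂ : Over VM (V.comap (W : FE E (M * q) →+* FE E (M * q))) := by
    refine over_of_map (fun a ha => fricke_alpha_mem_h60 hS hVM hV hW ha) (fun a ha => ?_)
    rw [H994.val_comap_lt_one_iff hL2.1 _ hWc]
    have ha' : InW A E M VM w a := (H994.inW_iff_val hL2M.1).2 ha
    have hcw : cE A E M w ≠ 0 := H378.cE_ne_zero hS M
    have e : a = cE A E M w * (a * (cE A E M w)⁻¹) := by
      field_simp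
    have e2 : (W : FE E (M * q) →+* FE E (M * q)) (algebraMap (FE E M) (FE E (M * q)) a) =
        cE A E (M * q) w * W (αE E M q (a * (cE A E M w)⁻¹)) := by
      conv_lhs => rw [e]
      show W (αE E M q (cE A E M w * (a * (cE A E M w)⁻¹))) = _
      rw [map_mul, map_mul, H378.alpha_cE]
      congr 1
    rw [e2, mul_comm (cE A E (M * q) w)]
    exact H994.val_mul_lt_one V (fricke_alpha_mem_h60 hS hVM hV hW ha') hL2.1.val_lt_one
  have hne : V.comap (W : FE E (M * q) →+* FE E (M * q)) ≠ V :=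
    H553.vzeroNe A E M q w hS V W hV hW
  have hne₁ : ¬ V ≤ V.comap (W : FE E (M * q) →+* FE E (M * q)) :=
    A2.H48.not_le_of_ne hL2.1 hU0 (Ne.symm hne)
  have hne₂ : ¬ V.comap (W : FE E (M * q) →+* FE E (M * q)) ≤ V :=
    A2.H48.not_le_of_ne hU0 hL2.1 hne
  have hdeg : Module.finrank (FE E M) (FE E (M * q)) = q + 1 :=
    S37.H818.finrankAlong_heckeAlphaBar (L := E) M q hq hS.q_not_dvd
  have hqO : VM.valuation ((q : ℕ) : FE E M) < 1 := by
    have h := H994.val_natCast_lt_one (N := M) (q := q) hS.lies_over hVM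
    rwa [map_natCast] at h
  -- the element `z = j_q` and `c = j`
  have hz : jE E (M * q) q (dvd_mul_left q M) ∈
      V.comap (W : FE E (M * q) →+* FE E (M * q)) := by
    rw [ValuationSubring.mem_comap]
    show W (jE E (M * q) q (dvd_mul_left q M)) ∈ V
    rw [hW.1 q M (dvd_mul_left q M) (dvd_mul_right M q) (mul_comm q M)]
    exact (hL2.2.2 M (dvd_mul_right M q)).1
  have hc : jE E M 1 (one_dvd _) ∈ VM := (hL2M.2.2 1 (one_dvd _)).1
  have hzc : (V.comap (W : FE E (M * q) →+* FE E (M * q))).valuation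
      (jE E (M * q) q (dvd_mul_left q M) ^ q -
        algebraMap (FE E M) (FE E (M * q)) (jE E M 1 (one_dvd _))) < 1 := by
    rw [H994.val_comap_lt_one_iff hL2.1 _ hWc]
    have e : (W : FE E (M * q) →+* FE E (M * q))
        (jE E (M * q) q (dvd_mul_left q M) ^ q -
          algebraMap (FE E M) (FE E (M * q)) (jE E M 1 (one_dvd _))) =
        jE E (M * q) M (dvd_mul_right M q) ^ q - jE E (M * q) (M * q) dvd_rfl := by
      show W (jE E (M * q) q (dvd_mul_left q M) ^ q - αE E M q (jE E M 1 (one_dvd _))) = _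
      rw [map_sub, map_pow, hW.1 q M (dvd_mul_left q M) (dvd_mul_right M q) (mul_comm q M),
        H994.αE_jE_one, hW.1 1 (M * q) (one_dvd _) dvd_rfl (one_mul _)]
    rw [e, Valuation.map_sub_swap]
    exact H994.val_frobZero hS.lies_over hV
  have hnp : ∀ a ∈ VM, ¬ VM.valuation (a ^ q - jE E M 1 (one_dvd _)) < 1 := fun a ha h =>
    hNP hS VM hVM a ha ((H994.inW_iff_val hL2M.1).2 h)
  have hyU : V.valuation (y - algebraMap (FE E M) (FE E (M * q)) U) < 1 :=
    (H994.inW_iff_val hL2.1).1 h1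
  have hyT : (V.comap (W : FE E (M * q) →+* FE E (M * q))).valuation
      (y ^ q - algebraMap (FE E M) (FE E (M * q)) T) < 1 :=
    (H994.inW_iff_val hU0).1 h2
  obtain ⟨-, hN⟩ := norm_red_abs q hq hdeg hO₁ hO₂ hne₁ hne₂ hqO hz hc hzc hnp hy
    (show y ∈ V.comap (W : FE E (M * q) →+* FE E (M * q)) from hWy) hU hT hyU hyT
  exact (H994.inW_iff_val hL2M.1).2 hN

end Concrete

end Fermat.Agent.S35.G.H60

end
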